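import Mathlib

/-!
# P-ORD, block B1, [DVR] cusp core : the abstract lemma (helper97; Mathlib only)

* `cv_total_of_principal` (**Lemma G'**) : `D` a noetherian domain, `P` a prime ideal which is
  locally principal (`∀ s ∈ P, ∃ b ∉ P, ∃ t, b s = t u`).  Then divisibility is total locally at
  `P` : `D_P` is a valuation ring.
* `cv_total_of_quot` : the same for the image of a noetherian ring `B` under a ring homomorphism
  `ρ : B →+* κ` into a field, at a prime ideal `𝔪 ⊇ ker ρ` which is generated by `ker ρ` and one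
  element locally : for `a c : B` there are `t, d`, `d ∉ 𝔪`, with `ρ (d a) = ρ (t c)` or
  `ρ (d c) = ρ (t a)`.
-/

set_option autoImplicit false
set_option linter.unusedSectionVars false
set_option linter.unusedVariables false
set_option linter.style.haveILetI false

namespace Fermat.Agent.H97.ORD

open IsLocalRing

/-- **Lemma G'.**  A noetherian domain is a valuation ring locally at a prime ideal which is
locally principal. -/
theorem cv_total_of_principal {D : Type*} [CommRing D] [IsDomain D] [IsNoetherianRing D]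
    (P : Ideal D) [hP : P.IsPrime] (u : D) (hu : u ∈ P)
    (hgen : ∀ s ∈ P, ∃ b : D, b ∉ P ∧ ∃ t : D, b * s = t * u) :
    ∀ a c : D, (∃ t d : D, d ∉ P ∧ d * a = t * c) ∨ (∃ t d : D, d ∉ P ∧ d * c = t * a) := by
  classical
  let R := Localization.AtPrime P
  have hle : P.primeCompl ≤ nonZeroDivisors D := by
    intro s hs
    exact mem_nonZeroDivisors_of_ne_zero (fun h => hs (h ▸ P.zero_mem))
  haveI : IsDomain R := IsLocalization.isDomain_of_le_nonZeroDivisors R hle
  haveI : IsNoetherianRing R := IsLocalization.isNoetherianRing P.primeCompl R inferInstance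
  have hinjR : Function.Injective (algebraMap D R) := IsLocalization.injective R hle
  have hprin : (maximalIdeal R).IsPrincipal := by
    refine ⟨⟨algebraMap D R u, ?_⟩⟩
    apply le_antisymm
    · intro x hx
      obtain ⟨s, d, rfl⟩ := IsLocalization.exists_mk'_eq P.primeCompl x
      have hs : s ∈ P := (IsLocalization.AtPrime.mk'_mem_maximal_iff R P s d).1 hx
      obtain ⟨b, hb, t, hbt⟩ := hgen s hs
      have hb' : b ∈ P.primeCompl := hb
      rw [Ideal.submodule_span_eq, Ideal.mem_span_singleton']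
      refine ⟨IsLocalization.mk' R t (⟨b, hb'⟩ * d), ?_⟩
      rw [mul_comm, IsLocalization.mul_mk'_eq_mk'_of_mul, IsLocalization.mk'_eq_iff_eq]
      congr 1
      simp only [Submonoid.coe_mul]
      linear_combination (-(d : D)) * hbt
    · rw [Ideal.submodule_span_eq, Ideal.span_le, Set.singleton_subset_iff]
      exact (IsLocalization.AtPrime.to_map_mem_maximal_iff R P u).2 hu
  have hval : ValuationRing R :=
    ((tfae_of_isNoetherianRing_of_isLocalRing_of_isDomain R).out 4 1).mp hprin
  -- unwinding divisibility in `R`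
  have key : ∀ a c : D, algebraMap D R a ∣ algebraMap D R c →
      ∃ t d : D, d ∉ P ∧ d * c = t * a := by
    intro a c ⟨r, hr⟩
    obtain ⟨t, d, rfl⟩ := IsLocalization.exists_mk'_eq P.primeCompl r
    refine ⟨t, d, d.2, hinjR ?_⟩
    rw [map_mul, map_mul, hr]
    have hspec : IsLocalization.mk' R t d * algebraMap D R (d : D) = algebraMap D R t :=
      IsLocalization.mk'_spec R t d
    calc algebraMap D R (d : D) * (algebraMap D R a * IsLocalization.mk' R t d)
        = (IsLocalization.mk' R t d * algebraMap D R (d : D)) * algebraMap D R a := by ring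
      _ = algebraMap D R t * algebraMap D R a := by rw [hspec]
  intro a c
  rcases ValuationRing.dvd_total (algebraMap D R a) (algebraMap D R c) with h | h
  · exact Or.inr (key a c h)
  · exact Or.inl (key c a h)

/-- **Lemma G', quotient form.**  `B` noetherian, `ρ : B →+* κ` into a field, `𝔪 ⊇ ker ρ` a prime
ideal generated locally by `ker ρ` and one element `U`.  Then the image of `B` in `κ` is a
valuation ring locally at `𝔪`. -/
theorem cv_total_of_quot {B κ : Type*} [CommRing B] [IsNoetherianRing B] [Field κ]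
    (ρ : B →+* κ) (𝔪 : Ideal B) [h𝔪 : 𝔪.IsPrime] (hker : RingHom.ker ρ ≤ 𝔪)
    (U : B) (hU : U ∈ 𝔪)
    (hgen : ∀ s ∈ 𝔪, ∃ b : B, b ∉ 𝔪 ∧ ∃ t : B, ρ (b * s) = ρ (t * U)) :
    ∀ a c : B, (∃ t d : B, d ∉ 𝔪 ∧ ρ (d * a) = ρ (t * c)) ∨
      (∃ t d : B, d ∉ 𝔪 ∧ ρ (d * c) = ρ (t * a)) := by
  classical
  let I : Ideal B := RingHom.ker ρ
  let D := B ⧸ I
  let φ : D →+* κ := RingHom.kerLift ρ
  have hφinj : Function.Injective φ := RingHom.kerLift_injective ρ
  haveI : IsDomain D := hφinj.isDomain φ
  have hφmk : ∀ b : B, φ (Ideal.Quotient.mk I b) = ρ b := fun b => RingHom.kerLift_mk ρ b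
  let P : Ideal D := 𝔪.map (Ideal.Quotient.mk I)
  have hmemP : ∀ b : B, Ideal.Quotient.mk I b ∈ P ↔ b ∈ 𝔪 := by
    intro b
    constructor
    · intro hb
      have h1 : b ∈ (𝔪.map (Ideal.Quotient.mk I)).comap (Ideal.Quotient.mk I) := hb
      rw [Ideal.comap_map_of_surjective _ Ideal.Quotient.mk_surjective] at h1
      have h2 : Ideal.comap (Ideal.Quotient.mk I) ⊥ ≤ 𝔪 := by
        intro x hx
        apply hker
        rw [Ideal.mem_comap, Ideal.mem_bot, Ideal.Quotient.eq_zero_iff_mem] at hx
        exact hx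
      exact (sup_le le_rfl h2) h1
    · intro hb
      exact Ideal.mem_map_of_mem _ hb
  haveI hPp : P.IsPrime := by
    apply Ideal.map_isPrime_of_surjective Ideal.Quotient.mk_surjective
    intro x hx
    apply hker
    rw [RingHom.mem_ker] at hx ⊢
    rw [Ideal.Quotient.eq_zero_iff_mem] at hx
    exact hx
  have hgenD : ∀ s ∈ P, ∃ b : D, b ∉ P ∧ ∃ t : D, b * s = t * Ideal.Quotient.mk I U := by
    intro s hs
    obtain ⟨s', rfl⟩ := Ideal.Quotient.mk_surjective s
    obtain ⟨b, hb, t, hbt⟩ := hgen s' ((hmemP s').1 hs)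
    refine ⟨Ideal.Quotient.mk I b, fun h => hb ((hmemP b).1 h), Ideal.Quotient.mk I t, ?_⟩
    apply hφinj
    rw [← map_mul, ← map_mul, hφmk, hφmk]
    exact hbt
  have htot := cv_total_of_principal P (Ideal.Quotient.mk I U) ((hmemP U).2 hU) hgenD
  intro a c
  rcases htot (Ideal.Quotient.mk I a) (Ideal.Quotient.mk I c) with ⟨t, d, hd, h⟩ | ⟨t, d, hd, h⟩
  · left
    obtain ⟨t', rfl⟩ := Ideal.Quotient.mk_surjective t
    obtain ⟨d', rfl⟩ := Ideal.Quotient.mk_surjective d
    refine ⟨t', d', fun h' => hd ((hmemP d').2 h'), ?_⟩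
    have := congrArg φ h
    rwa [← map_mul, ← map_mul, hφmk, hφmk] at this
  · right
    obtain ⟨t', rfl⟩ := Ideal.Quotient.mk_surjective t
    obtain ⟨d', rfl⟩ := Ideal.Quotient.mk_surjective d
    refine ⟨t', d', fun h' => hd ((hmemP d').2 h'), ?_⟩
    have := congrArg φ h
    rwa [← map_mul, ← map_mul, hφmk, hφmk] at this

end Fermat.Agent.H97.ORD
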