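import Fermat.Agent.H41.ORD.ValCore
import Fermat.Agent.H67.SS.RegMono
import Fermat.Agent.H70.SS.AsmJ
import Fermat.Agent.H97.ORD.CuspValAbs

/-!
# P-ORD, block B1, row 1158 [DVR] : THE CUSP CORE (helper97)

`modelValGen_cusp : ModelValGenStatement M q (ktAuxRoot M q) jq⁻¹ True` (helper41's open
`(K₁, A₀)`-input of `nmValOo_of_cusp`) : on the chart `1/j` of the model of `X₀(M q)` over ANY
discrete valuation ring `A₀` (fields `K₁ ⊇ μ_R`), at every maximal ideal `𝔪 ∋ ϖ, 1/j` through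
`V_∞`, the image of `B(1/j)_𝔪` in the residue field of `V_∞` is a valuation ring : for every
`z ∈ V_∞` there are `t, d ∈ B(1/j)`, `d ∉ 𝔪`, with `d z ≡ t` or `d ≡ t z` modulo `𝔪_{V_∞}`.

PROOF.
* helper7 / helper67 `cuspGenR` : `𝔪 B_𝔪 = (ϖ, U)`.  Modulo `𝔪_{V_∞}` (which contains `ϖ`) the
  image `D` of `B(1/j)` in the residue field of `V_∞` is a noetherian domain whose maximal ideal
  `𝔪 / 𝔮` is locally principal, hence `D` is a valuation ring locally at `𝔪`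
  (`cv_total_of_quot`, Lemma G') : VAL on `B(1/j)`.
* FRAC on the chart `j` (helper66 `modelFrac`) + the overlap `j⁻ᵏ B(j) ⊆ B(1/j)` (`klc_overlap`),
  `j` being a unit of `V_∞` : every `z ∈ V_∞` is `a / b` modulo `𝔪_{V_∞}` with `a, b ∈ B(1/j)`,
  `b` a unit of `V_∞`.
* FRAC + VAL give the statement.
-/

set_option autoImplicit false
set_option linter.unusedSectionVars false
set_option linter.unusedVariables false
set_option linter.style.haveILetI false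
set_option maxHeartbeats 800000

noncomputable section

namespace Fermat.Agent.H97.ORD

open Polynomial ModularCurve AlgebraicCurve
open Fermat.Agent.H22.KL Fermat.Agent.H66 Fermat.Agent.H55.SS Fermat.Agent.H82.SS
open Fermat.Agent.H11.SS2 Fermat.Agent.H67.SS Fermat.Agent.H7.SS Fermat.Agent.H7.SS2
open Fermat.Agent.H41.SS Fermat.Agent.H71.SS Fermat.Agent.H71.ORD Fermat.Agent.H41.ORD

theorem cv_dvd_ktAuxRoot (M q : ℕ) : M ∣ ktAuxRoot M q := by
  unfold ktAuxRoot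
  split_ifs
  · exact Dvd.intro_left 3 rfl
  · exact Dvd.intro_left 2 rfl

/-- **The cusp core**, chart written as `x⁻¹` with `x = j`. -/
theorem cv_cusp_aux (M q : ℕ) [NeZero M] [NeZero q] (hq : q.Prime) (hqM : ¬ q ∣ M)
    (K₁ : Type) [Field K₁] [Algebra ℚ K₁] [FiniteDimensional ℚ K₁]
    (A₀ : Type) [CommRing A₀] [IsDomain A₀] [IsDiscreteValuationRing A₀]
    [Algebra A₀ K₁] [IsFractionRing A₀ K₁]
    [Algebra A₀ (ModelField K₁ (M * q))] [IsScalarTower A₀ K₁ (ModelField K₁ (M * q))]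
    (hqA : ¬ IsUnit ((q : ℕ) : A₀)) (hζ : ∃ ζ : K₁, IsPrimitiveRoot ζ (ktAuxRoot M q))
    (ϖ : A₀) (hirr : Irreducible ϖ)
    (x : ModelField K₁ (M * q)) (hx : (x : LaurentSeries K₁) = coeffEmb K₁ jq)
    (W : ModelField K₁ (M * q) ≃ₐ[K₁] ModelField K₁ (M * q)) (hW : IsAtkinLehnerModel K₁ M q W)
    (𝔪 : Ideal (chartClosure A₀ (ModelField K₁ (M * q)) x⁻¹)) (h𝔪 : 𝔪.IsMaximal)
    (hϖ𝔪 : algebraMap A₀ (chartClosure A₀ (ModelField K₁ (M * q)) x⁻¹) ϖ ∈ 𝔪)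
    (hT : Through A₀ (ModelField K₁ (M * q)) x⁻¹ 𝔪 (vInf K₁ A₀ (M * q)))
    (hcx : (⟨x⁻¹, vc_self_mem x⁻¹⟩ : chartClosure A₀ (ModelField K₁ (M * q)) x⁻¹) ∈ 𝔪)
    (z : ModelField K₁ (M * q)) (hz : z ∈ vInf K₁ A₀ (M * q)) :
    ∃ t d : chartClosure A₀ (ModelField K₁ (M * q)) x⁻¹, d ∉ 𝔪 ∧
      ((d : ModelField K₁ (M * q)) * z - (t : ModelField K₁ (M * q)) ∈
          (vInf K₁ A₀ (M * q)).nonunits ∨
        (d : ModelField K₁ (M * q)) - (t : ModelField K₁ (M * q)) * z ∈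
          (vInf K₁ A₀ (M * q)).nonunits) := by
  classical
  haveI h𝔪p : 𝔪.IsPrime := h𝔪.isPrime
  haveI : CharZero K₁ := charZero_of_injective_algebraMap (algebraMap ℚ K₁).injective
  haveI : CharZero (ModelField K₁ (M * q)) :=
    charZero_of_injective_algebraMap (algebraMap K₁ (ModelField K₁ (M * q))).injective
  set V := vInf K₁ A₀ (M * q) with hV
  have hxtr : Transcendental A₀ x := Fermat.Agent.H58.modelTranscendental_jq (M * q) K₁ A₀ x hx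
  have hxi : Transcendental A₀ x⁻¹ := Fermat.Agent.H89.klg_transcendental_inv hxtr
  have hx0 : x ≠ 0 := by
    intro h0
    apply hxtr
    rw [h0]
    exact isAlgebraic_zero
  have hvert := isVertical_vInf M q K₁ A₀ hqA ϖ hirr x hx W hW
  have hBV : ∀ s : chartClosure A₀ (ModelField K₁ (M * q)) x,
      (s : ModelField K₁ (M * q)) ∈ V := fun s =>
    hvert.2.2.1 _ (Fermat.Agent.H89.klg_chartClosure_le_gaussClosure hirr hxtr s.2)
  have hBV' : ∀ s : chartClosure A₀ (ModelField K₁ (M * q)) x⁻¹,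
      (s : ModelField K₁ (M * q)) ∈ V := fun s => by
    have h1 := Fermat.Agent.H89.klg_chartClosure_le_gaussClosure hirr hxi s.2
    have h2 := Fermat.Agent.H89.klg_gaussClosure_le_inv (ϖ := ϖ) hxi h1
    rw [inv_inv] at h2
    exact hvert.2.2.1 _ h2
  have hϖV : algebraMap A₀ (ModelField K₁ (M * q)) ϖ ∈ V.nonunits := hvert.2.2.2
  have hxV : x ∈ V := hBV ⟨x, vc_self_mem x⟩
  have hxiV : x⁻¹ ∈ V := hBV' ⟨x⁻¹, vc_self_mem x⁻¹⟩
  -- `B(1/j)` is noetherian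
  have hfd : ∃ d : ℕ, Nonempty (Module.Basis (Fin d)
      (chartField A₀ (ModelField K₁ (M * q)) x⁻¹) (ModelField K₁ (M * q))) := by
    rw [Fermat.Agent.H89.klg_chartField_inv]
    exact Fermat.Agent.H70.SS.modelFinite_jq (M * q) K₁ A₀ x hx
  haveI hnoeth : IsNoetherianRing ↥(chartClosure A₀ (ModelField K₁ (M * q)) x⁻¹) :=
    isNoetherianRing_chartClosure hxi hfd
  -- the reduction `B(1/j) → κ(V_∞)`
  let incl : ↥(chartClosure A₀ (ModelField K₁ (M * q)) x⁻¹) →+* ↥V :=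
    { toFun := fun s => ⟨(s : ModelField K₁ (M * q)), hBV' s⟩
      map_one' := rfl
      map_mul' := fun _ _ => rfl
      map_zero' := rfl
      map_add' := fun _ _ => rfl }
  let ρ : ↥(chartClosure A₀ (ModelField K₁ (M * q)) x⁻¹) →+* IsLocalRing.ResidueField ↥V :=
    (IsLocalRing.residue ↥V).comp incl
  have hρ0 : ∀ s : chartClosure A₀ (ModelField K₁ (M * q)) x⁻¹,
      ρ s = 0 ↔ (s : ModelField K₁ (M * q)) ∈ V.nonunits := by
    intro s
    show IsLocalRing.residue ↥V (incl s) = 0 ↔ _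
    rw [IsLocalRing.residue_eq_zero_iff]
    exact (ValuationSubring.coe_mem_nonunits_iff (a := incl s)).symm
  have hρsub : ∀ d a t b : chartClosure A₀ (ModelField K₁ (M * q)) x⁻¹,
      ρ (d * a) = ρ (t * b) →
      (d : ModelField K₁ (M * q)) * (a : ModelField K₁ (M * q)) -
        (t : ModelField K₁ (M * q)) * (b : ModelField K₁ (M * q)) ∈ V.nonunits := by
    intro d a t b hab
    have h1 : ρ (d * a - t * b) = 0 := by rw [map_sub, hab, sub_self]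
    have h2 := (hρ0 (d * a - t * b)).1 h1
    have e : ((d * a - t * b : chartClosure A₀ (ModelField K₁ (M * q)) x⁻¹) :
        ModelField K₁ (M * q)) =
        (d : ModelField K₁ (M * q)) * (a : ModelField K₁ (M * q)) -
        (t : ModelField K₁ (M * q)) * (b : ModelField K₁ (M * q)) := rfl
    rw [e] at h2
    exact h2
  -- the regular parameters at the cusp
  obtain ⟨-, U, hU, hgenU⟩ := Fermat.Agent.H67.SS.cuspGenR_of_dvd M q hq hqM (ktAuxRoot_pos M q)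
    (cv_dvd_ktAuxRoot M q) K₁ A₀ hqA hζ ϖ hirr x hx W hW 𝔪 h𝔪 hϖ𝔪 (fun s hs => by
      have e : s = ⟨x⁻¹, vc_self_mem x⁻¹⟩ := Subtype.ext hs
      rw [e]
      exact hcx)
  have hker : RingHom.ker ρ ≤ 𝔪 := fun s hs => hT s ((hρ0 s).1 (RingHom.mem_ker.1 hs))
  have hρϖ : ρ (algebraMap A₀ (chartClosure A₀ (ModelField K₁ (M * q)) x⁻¹) ϖ) = 0 :=
    (hρ0 _).2 hϖV
  have hgen : ∀ s ∈ 𝔪, ∃ b : chartClosure A₀ (ModelField K₁ (M * q)) x⁻¹, b ∉ 𝔪 ∧
      ∃ t : chartClosure A₀ (ModelField K₁ (M * q)) x⁻¹, ρ (b * s) = ρ (t * U) := by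
    intro s hs
    obtain ⟨b, hb, b₁, b₂, e⟩ := hgenU s hs
    refine ⟨b, hb, b₂, ?_⟩
    rw [e, map_add, map_mul, hρϖ, zero_mul, zero_add, mul_comm U b₂]
  have hVAL := cv_total_of_quot ρ 𝔪 hker U hU hgen
  -- FRAC on the chart `j`
  obtain ⟨b₁, b₂, hb₁, hb₂, hb₂m, hzm⟩ :=
    Fermat.Agent.H66.SS.modelFrac M q hq hqM K₁ A₀ hqA ϖ hirr x hx z
      (InV.exists_quot _ ((mem_vInf_iff _).1 hz))
  have hb₂u : heckeAlphaBar K₁ M q b₂ ∉ V.nonunits := by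
    intro h
    exact hb₂m (Fermat.Agent.H66.SS.fv_inM_exists_quot _ ((mem_nonunits_vInf_iff _).1 h) hirr)
  have hzm' : z * heckeAlphaBar K₁ M q b₂ - heckeAlphaBar K₁ M q b₁ ∈ V.nonunits :=
    (mem_nonunits_vInf_iff _).2 (Fermat.Agent.H66.SS.fv_inM_of_quot _ hirr.not_isUnit hzm)
  -- the overlap
  obtain ⟨k₁, hk₁⟩ := Fermat.Agent.H85.klc_overlap hx0 _ hb₁
  obtain ⟨k₂, hk₂⟩ := Fermat.Agent.H85.klc_overlap hx0 _ hb₂
  have hxiB : x⁻¹ ∈ chartClosure A₀ (ModelField K₁ (M * q)) x⁻¹ := vc_self_mem x⁻¹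
  have haB : x⁻¹ ^ (k₁ + k₂) * heckeAlphaBar K₁ M q b₁ ∈
      chartClosure A₀ (ModelField K₁ (M * q)) x⁻¹ := by
    have e : x⁻¹ ^ (k₁ + k₂) * heckeAlphaBar K₁ M q b₁ =
        x⁻¹ ^ k₂ * (x⁻¹ ^ k₁ * heckeAlphaBar K₁ M q b₁) := by
      rw [pow_add]; ring
    rw [e]
    exact Subalgebra.mul_mem _ (Subalgebra.pow_mem _ hxiB _) hk₁
  have hbB : x⁻¹ ^ (k₁ + k₂) * heckeAlphaBar K₁ M q b₂ ∈
      chartClosure A₀ (ModelField K₁ (M * q)) x⁻¹ := by
    have e : x⁻¹ ^ (k₁ + k₂) * heckeAlphaBar K₁ M q b₂ =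
        x⁻¹ ^ k₁ * (x⁻¹ ^ k₂ * heckeAlphaBar K₁ M q b₂) := by
      rw [pow_add]; ring
    rw [e]
    exact Subalgebra.mul_mem _ (Subalgebra.pow_mem _ hxiB _) hk₂
  set k := k₁ + k₂ with hk
  set a : ModelField K₁ (M * q) := x⁻¹ ^ k * heckeAlphaBar K₁ M q b₁ with ha
  set b : ModelField K₁ (M * q) := x⁻¹ ^ k * heckeAlphaBar K₁ M q b₂ with hb
  have hxkV : x ^ k ∈ V := V.pow_mem hxV k
  have hxikV : x⁻¹ ^ k ∈ V := V.pow_mem hxiV k
  have hbV : b ∈ V := hBV' ⟨b, hbB⟩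
  have hbu : b ∉ V.nonunits := by
    intro h
    apply hb₂u
    have e : heckeAlphaBar K₁ M q b₂ = x ^ k * b := by
      rw [hb, ← mul_assoc, ← mul_pow, mul_inv_cancel₀ hx0, one_pow, one_mul]
    rw [e]
    exact nu_mul_left V hxkV h
  have hzab : z * b - a ∈ V.nonunits := by
    have e : z * b - a = x⁻¹ ^ k * (z * heckeAlphaBar K₁ M q b₂ - heckeAlphaBar K₁ M q b₁) := by
      rw [ha, hb]; ring
    rw [e]
    exact nu_mul_left V hxikV hzm'
  rcases hVAL ⟨a, haB⟩ ⟨b, hbB⟩ with ⟨t, d, hd, h⟩ | ⟨t, d, hd, h⟩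
  · refine ⟨t, d, hd, Or.inl ?_⟩
    have h' : (d : ModelField K₁ (M * q)) * a - (t : ModelField K₁ (M * q)) * b ∈ V.nonunits :=
      hρsub d ⟨a, haB⟩ t ⟨b, hbB⟩ h
    apply nu_cancel V hbV hbu
    have e : b * ((d : ModelField K₁ (M * q)) * z - (t : ModelField K₁ (M * q))) =
        (d : ModelField K₁ (M * q)) * (z * b - a) +
        ((d : ModelField K₁ (M * q)) * a - (t : ModelField K₁ (M * q)) * b) := by ring
    rw [e]
    exact nu_add V (nu_mul_left V (hBV' d) hzab) h'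
  · refine ⟨t, d, hd, Or.inr ?_⟩
    have h' : (d : ModelField K₁ (M * q)) * b - (t : ModelField K₁ (M * q)) * a ∈ V.nonunits :=
      hρsub d ⟨b, hbB⟩ t ⟨a, haB⟩ h
    apply nu_cancel V hbV hbu
    have e : b * ((d : ModelField K₁ (M * q)) - (t : ModelField K₁ (M * q)) * z) =
        ((d : ModelField K₁ (M * q)) * b - (t : ModelField K₁ (M * q)) * a) -
        (t : ModelField K₁ (M * q)) * (z * b - a) := by ring
    rw [e]
    exact nu_sub V h' (nu_mul_left V (hBV' t) hzab)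

/-- **THE CUSP CORE of [DVR]** : `ModelValGenStatement M q (ktAuxRoot M q) jq⁻¹ True`,
UNCONDITIONAL for every prime `q ∤ M`. -/
theorem modelValGen_cusp (M q : ℕ) [NeZero M] [NeZero q] (hq : q.Prime) (hqM : ¬ q ∣ M) :
    ModelValGenStatement M q (ktAuxRoot M q) (jq)⁻¹ True := by
  intro K₁ _ _ _ A₀ _ _ _ _ _ _ _ hqA hζ ϖ hirr x hx W hW 𝔪 h𝔪 hϖ𝔪 hT hcx z hz
  obtain ⟨xj, rfl⟩ : ∃ xj : ModelField K₁ (M * q), x = xj⁻¹ := ⟨x⁻¹, (inv_inv x).symm⟩
  have hxj : (xj : LaurentSeries K₁) = coeffEmb K₁ jq := by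
    have h1 : ((xj⁻¹ : ModelField K₁ (M * q)) : LaurentSeries K₁) =
        (xj : LaurentSeries K₁)⁻¹ := rfl
    rw [h1, map_inv₀] at hx
    exact inv_injective hx
  exact cv_cusp_aux M q hq hqM K₁ A₀ hqA hζ ϖ hirr xj hxj W hW 𝔪 h𝔪 hϖ𝔪 hT (hcx trivial) z hz

end Fermat.Agent.H97.ORD

end
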