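import Fermat.Agent.H97.ORD.NmValOo
import Fermat.Agent.H82.ORD.NmDvrAbs
import Fermat.Agent.H95.ORD.LocalW

/-!
# P-ORD, block B1, row 1158 [DVR] : CLOSED TERMS (helper97)

* `nmDvrOo : NmDvrOoStatement M p`  (UNCONDITIONAL) = helper82 `nmDvrOo_of_val` (VAL + RRHyp ⟹
  place) + `nmValOo` (helper41's descent + the cusp core `modelValGen_cusp`) + helper20 `nmSoft`;
* `nmDvrZero : NmDvrZeroStatement M p` (UNCONDITIONAL) = helper95 / helper86 `nmDvrZero_of_oo'`.
-/

set_option autoImplicit false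

namespace Fermat.Agent.H97.ORD

open Fermat.Agent.H84.ORD

/-- **[DVR], component `∞`**, UNCONDITIONAL. -/
theorem nmDvrOo (M p : ℕ) [NeZero M] [NeZero p] : NmDvrOoStatement M p :=
  Fermat.Agent.H82.ORD.nmDvrOo_of_val (Fermat.Agent.H20.ORD.nmSoft M p) (nmValOo M p)

/-- **[DVR], component `0`**, UNCONDITIONAL. -/
theorem nmDvrZero (M p : ℕ) [NeZero M] [NeZero p] : NmDvrZeroStatement M p :=
  Fermat.Agent.H95.ORD.nmDvrZero_of_oo' (M := M) (p := p) (Fermat.Agent.H20.ORD.nmSoft M p) (nmDvrOo M p)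

end Fermat.Agent.H97.ORD
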