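import Fermat.Agent.H97.ORD.CuspVal
import Fermat.Agent.H41.ORD.NmValChart
import Fermat.Agent.H20.ORD.NmSoft

/-!
# P-ORD, block B1, row 1158 [DVR] : [VAL] on the component `∞`, UNCONDITIONAL (helper97)

`nmValOo : NmValOoStatement M p` : at every centre on `C_∞`, `red_∞ (B̄_𝔪)` is a valuation ring
of `F_∞` (`NmLocalOo P z ∨ NmLocalOo P z⁻¹` for every `z`).

= helper41's descent `nmValOo_of_cusp` + the cusp core `modelValGen_cusp` + helper20's `nmSoft`.
-/

set_option autoImplicit false

namespace Fermat.Agent.H97.ORD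

open Fermat.Agent.H84.ORD Fermat.Agent.H41.ORD

/-- **[VAL], component `∞`**, from the soft facts. -/
theorem nmValOo_of_soft (M p : ℕ) [NeZero M] [NeZero p] (hS : NmSoftStatement M p) :
    NmValOoStatement M p := by
  intro A h P hI z
  have hp : p.Prime := h.prime
  have hpM : ¬ p ∣ M := (Nat.Prime.coprime_iff_not_dvd hp).1 h.cop.symm
  exact nmValOo_of_cusp (modelValGen_cusp M p hp hpM) hS A h P hI z

/-- **[VAL], component `∞`**, UNCONDITIONAL. -/
theorem nmValOo (M p : ℕ) [NeZero M] [NeZero p] : NmValOoStatement M p :=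
  nmValOo_of_soft M p (Fermat.Agent.H20.ORD.nmSoft M p)

end Fermat.Agent.H97.ORD
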